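import Mathlib
import Fermat.Agent.TW.Hopf.OrdLin
import Fermat.Agent.TW.Hopf.OrdLineCor

/-!
# S33 design pass, (II-b): rigid + residually ordinary ⟹ ordinary, over ANY Artinian local ring

`A` a local ring with nilpotent maximal ideal (e.g. a finite local ring), `V` free of rank `2`,
`ρ : G →* End_A V`, `D`, `I` subgroups (`I ≤ D`, `I` normalised by `D`).  `E` a `D`-stable proper
submodule such that `I` acts trivially on `V / E` and non-trivially on `E / 𝔪V`.

If `ρ` is rigid (`OrdLine.IsRigid ρ D I`, the single consequence of flatness used on main), then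
`R := Σ_{σ ∈ I} (σ - 1) V` is a free rank-one direct summand `span {b 0}`, stable under `D`, and `I`
acts trivially on `V / R` : the body of the Prelude's `GaloisRepAdic.IsOrdinaryAt`.

Main's `OrdLine.exists_ordinary_line_of_isRigid` is the case `A = k[ε]`.  Proof here: with
`v₁ = (σ₀ - 1) v ∈ R \ 𝔪V` and a basis `(v₁, v₂)`, rigidity applied to `W = ⊤`,
`K = R ⊓ 𝔪ⁱ (E + 𝔪V)` shows `a ∈ 𝔪ⁱ, a v₂ ∈ R ⟹ a ∈ 𝔪ⁱ⁺¹`; hence `R ∩ A v₂ = 0` and `R = A v₁`.
-/

set_option autoImplicit false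
set_option linter.unusedSectionVars false

namespace Fermat.Agent.FF2.S33

open IsLocalRing Module Fermat.Agent.TW.Hopf

variable {A : Type*} [CommRing A] [IsLocalRing A]
variable {V : Type*} [AddCommGroup V] [Module A V]
variable {G : Type*} [Group G] {ρ : G →* Module.End A V} {D I : Subgroup G}

/-- the augmentation submodule `Σ_{σ ∈ I} (σ - 1) V`. -/
def aug (ρ : G →* Module.End A V) (I : Subgroup G) : Submodule A V :=
  ⨆ σ ∈ I, (⊤ : Submodule A V).map (ρ σ - 1)

theorem sub_mem_aug {σ : G} (hσ : σ ∈ I) (v : V) : ρ σ v - v ∈ aug ρ I :=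
  Submodule.mem_iSup_of_mem σ (Submodule.mem_iSup_of_mem hσ ⟨v, Submodule.mem_top, rfl⟩)

theorem aug_le {E : Submodule A V} (hquot : ∀ σ ∈ I, ∀ v, ρ σ v - v ∈ E) : aug ρ I ≤ E := by
  refine iSup_le fun σ => iSup_le fun hσ => ?_
  rintro _ ⟨v, -, rfl⟩
  exact hquot σ hσ v

theorem aug_stable (hnorm : ∀ τ ∈ D, ∀ σ ∈ I, τ * σ * τ⁻¹ ∈ I) :
    ∀ τ ∈ D, ∀ v ∈ aug ρ I, ρ τ v ∈ aug ρ I := by
  intro τ hτ v hv
  refine Submodule.iSup_induction _ (motive := fun s => ρ τ s ∈ aug ρ I) hv (fun σ x hx => ?_)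
    (by rw [map_zero]; exact Submodule.zero_mem _)
    (fun x y hx hy => by rw [map_add]; exact Submodule.add_mem _ hx hy)
  refine Submodule.iSup_induction _ (motive := fun s => ρ τ s ∈ aug ρ I) hx (fun hσ x hx => ?_)
    (by rw [map_zero]; exact Submodule.zero_mem _)
    (fun x y hx hy => by rw [map_add]; exact Submodule.add_mem _ hx hy)
  obtain ⟨w, -, rfl⟩ := hx
  have h1 : ρ τ ((ρ σ - 1) w) = ρ (τ * σ * τ⁻¹) (ρ τ w) - ρ τ w := by
    have h2 : ρ (τ * σ * τ⁻¹) (ρ τ w) = ρ τ (ρ σ w) := by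
      rw [← Module.End.mul_apply, ← map_mul]
      have : τ * σ * τ⁻¹ * τ = τ * σ := by group
      rw [this, map_mul, Module.End.mul_apply]
    rw [h2, LinearMap.sub_apply, Module.End.one_apply, map_sub]
  rw [h1]
  exact sub_mem_aug (hnorm τ hτ σ hσ) _

/-- coordinates of `𝔪ⁱ • E'` for `E'` cut out by the second coordinate. -/
theorem repr_mem_pow_succ (b : Basis (Fin 2) A V) {E' : Submodule A V}
    (hE' : ∀ v ∈ E', b.repr v 1 ∈ maximalIdeal A) (i : ℕ) {y : V}
    (hy : y ∈ (maximalIdeal A ^ i) • E') : b.repr y 1 ∈ maximalIdeal A ^ (i + 1) := by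
  refine Submodule.smul_induction_on hy ?_ ?_
  · intro m hm e he
    rw [map_smul, Finsupp.smul_apply, smul_eq_mul, pow_succ]
    exact Ideal.mul_mem_mul hm (hE' e he)
  · intro x z hx hz
    rw [map_add, Finsupp.add_apply]
    exact Ideal.add_mem _ hx hz

/-- **rigid + residually ordinary ⟹ ordinary** over a local ring with nilpotent maximal ideal. -/
theorem exists_ordinary_line_of_isRigid_general
    (hnil : ∃ n : ℕ, maximalIdeal A ^ n = ⊥) (b₀ : Basis (Fin 2) A V)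
    (hnorm : ∀ τ ∈ D, ∀ σ ∈ I, τ * σ * τ⁻¹ ∈ I) (hID : I ≤ D)
    (E : Submodule A V) (hE2 : E ⊔ maximalIdeal A • (⊤ : Submodule A V) ≠ ⊤)
    (hED : ∀ τ ∈ D, ∀ v ∈ E, ρ τ v ∈ E)
    (hquot : ∀ σ ∈ I, ∀ v, ρ σ v - v ∈ E)
    (hsub : ∃ σ ∈ I, ∃ v ∈ E, ρ σ v - v ∉ maximalIdeal A • (⊤ : Submodule A V))
    (hrig : OrdLine.IsRigid ρ D I) :
    ∃ L : Submodule A V, (∃ b : Basis (Fin 2) A V, L = Submodule.span A {b 0}) ∧
      (∀ τ ∈ D, ∀ v ∈ L, ρ τ v ∈ L) ∧ ∀ σ ∈ I, ∀ v, ρ σ v - v ∈ L := by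
  classical
  obtain ⟨σ₀, hσ₀, v, hvE, hv⟩ := hsub
  set R : Submodule A V := aug ρ I with hR
  set mV : Submodule A V := maximalIdeal A • (⊤ : Submodule A V) with hmV
  set E' : Submodule A V := E ⊔ mV with hE'
  have hRE : R ≤ E := aug_le hquot
  have hRstab := aug_stable (ρ := ρ) hnorm
  -- the first basis vector
  set v₁ : V := ρ σ₀ v - v with hv₁
  have hv₁R : v₁ ∈ R := sub_mem_aug hσ₀ v
  obtain ⟨b, hb0⟩ := OrdLin.exists_basis_of_notMem b₀ hv
  have hb0E' : b 0 ∈ E' := by rw [hb0]; exact Submodule.mem_sup_left (hRE hv₁R)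
  have hcoord : ∀ w ∈ E', b.repr w 1 ∈ maximalIdeal A := fun w hw =>
    (OrdLin.mem_iff_repr b (le_sup_right : mV ≤ E') hE2 hb0E' w).mp hw
  -- stability of `E'` and of `𝔪ⁱ • E'`
  have hmVstab : ∀ τ : G, ∀ w ∈ mV, ρ τ w ∈ mV := by
    intro τ w hw
    have : mV.map (ρ τ) ≤ mV := by
      rw [hmV, Submodule.map_smul'']
      exact Submodule.smul_mono le_rfl le_top
    exact this ⟨w, hw, rfl⟩
  have hE'stab : ∀ τ ∈ D, ∀ w ∈ E', ρ τ w ∈ E' := by
    intro τ hτ w hw
    obtain ⟨e, he, m, hm, rfl⟩ := Submodule.mem_sup.1 hw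
    rw [map_add]
    exact Submodule.add_mem _ (Submodule.mem_sup_left (hED τ hτ e he))
      (Submodule.mem_sup_right (hmVstab τ m hm))
  have hpowstab : ∀ i : ℕ, ∀ τ ∈ D, ∀ w ∈ (maximalIdeal A ^ i) • E',
      ρ τ w ∈ (maximalIdeal A ^ i) • E' := by
    intro i τ hτ w hw
    have : ((maximalIdeal A ^ i) • E').map (ρ τ) ≤ (maximalIdeal A ^ i) • E' := by
      rw [Submodule.map_smul'']
      refine Submodule.smul_mono le_rfl ?_
      rintro _ ⟨e, he, rfl⟩
      exact hE'stab τ hτ e he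
    exact this ⟨w, hw, rfl⟩
  -- the key step from rigidity
  have key : ∀ i : ℕ, ∀ a ∈ maximalIdeal A ^ i, a • b 1 ∈ R → a ∈ maximalIdeal A ^ (i + 1) := by
    intro i a ha haR
    set K : Submodule A V := R ⊓ (maximalIdeal A ^ i) • E' with hK
    have hKstab : ∀ τ ∈ D, ∀ w ∈ K, ρ τ w ∈ K := fun τ hτ w hw =>
      ⟨hRstab τ hτ w hw.1, hpowstab i τ hτ w hw.2⟩
    have hyK : a • b 1 ∈ K := by
      refine hrig ⊤ K le_top (fun _ _ _ _ => Submodule.mem_top) hKstab (a • b 1)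
        Submodule.mem_top (fun σ hσ => ?_) (Submodule.mem_sup_right haR)
      have h1 : ρ σ (a • b 1) - a • b 1 = a • (ρ σ (b 1) - b 1) := by
        rw [map_smul, smul_sub]
      rw [h1]
      refine ⟨Submodule.smul_mem _ _ (sub_mem_aug hσ _), ?_⟩
      exact Submodule.smul_mem_smul ha (Submodule.mem_sup_left (hquot σ hσ _))
    have h2 := repr_mem_pow_succ b hcoord i hyK.2
    rwa [map_smul, Finsupp.smul_apply, Basis.repr_self, Finsupp.single_eq_same, smul_eq_mul,
      mul_one] at h2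
  have hzero : ∀ a : A, a • b 1 ∈ R → a = 0 := by
    intro a haR
    obtain ⟨n, hn⟩ := hnil
    have hall : ∀ i : ℕ, a ∈ maximalIdeal A ^ i := by
      intro i
      induction i with
      | zero => simp
      | succ i ih => exact key i a ih haR
    have := hall n
    rw [hn] at this
    exact this
  -- `R = span {b 0}`
  have hRspan : R = Submodule.span A {b 0} := by
    apply le_antisymm
    · intro r hr
      have hdecomp := OrdLin.repr_fin_two b r
      have h1 : b.repr r 1 • b 1 ∈ R := by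
        have : b.repr r 1 • b 1 = r - b.repr r 0 • b 0 := by
          rw [eq_sub_iff_add_eq, add_comm]; exact hdecomp.symm
        rw [this]
        exact Submodule.sub_mem _ hr (Submodule.smul_mem _ _ (by rw [hb0]; exact hv₁R))
      have h2 := hzero _ h1
      rw [hdecomp, h2, zero_smul, add_zero]
      exact Submodule.smul_mem _ _ (Submodule.subset_span rfl)
    · rw [Submodule.span_le, Set.singleton_subset_iff, hb0]
      exact hv₁R
  exact ⟨R, ⟨b, hRspan⟩, hRstab, fun σ hσ w => sub_mem_aug hσ w⟩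

end Fermat.Agent.FF2.S33
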