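import Mathlib
import Fermat.Agent.TW.Hopf.FlatRigid

/-!
# S33 design pass, (II-b): flat ⟹ rigid over ANY finite local ring of residue characteristic `p`

Main's `FlatRigid.isRigid_of_isFlatAt` assumes `(p : A) = 0` because **RIG-unr**
(`FlatModel.eq_zero_of_mem_V0_of_fixed`) is stated for elements killed by `p`.  Here:

* `eq_zero_of_mem_V0_of_fixed_pow` : RIG-unr for elements killed by `p ^ n` (induction on `n`:
  `p ^ n • v` lies in `V⁰`, is fixed by inertia and is killed by `p`);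
* `isRigid_of_isFlatAt_general` : `ρ : GaloisRepAdic A` flat at `p` (odd), `A` finite local with
  `(p : A)` nilpotent ⟹ `OrdLine.IsRigid ρ.ρ D_P I_P`.
-/

set_option autoImplicit false
set_option linter.unusedSectionVars false
set_option linter.style.haveILetI false

namespace Fermat.Agent.FF2.S33

open WithConv Fermat.Agent.TW.Hopf Fermat.Agent.TW.Hopf.Closure Fermat.Agent.TW.Hopf.Descent
  Fermat.Agent.TW.Hopf.DecompRing Fermat.Agent.TW.Hopf.Flat Fermat.Agent.TW.Hopf.PointsReduction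
  Fermat.Agent.TW.Hopf.FlatRigid

local notation "Qb" => AlgebraicClosure ℚ
local notation "GQ" => (AlgebraicClosure ℚ ≃ₐ[ℚ] AlgebraicClosure ℚ)

universe u

section Model

variable {R : Type*} [CommRing R] [Algebra R Qb] {D : Subgroup GQ}
  {hRfix : ∀ (σ : D) (r : R), (σ : GQ) (algebraMap R Qb r) = algebraMap R Qb r}
  {V : Type*} [AddCommGroup V] {act : D → V → V}
  (M : FlatModel.{u} R hRfix V act)
  (P : ValuationSubring Qb) (hRP : ∀ r : R, algebraMap R Qb r ∈ P)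
  {p : ℕ} (hp : p.Prime) (hP : P.LiesOverPrime p) (hID : P.inertiaSubgroupIn ℚ ≤ D)

include M in
theorem act_nsmul (σ : D) (k : ℕ) (v : V) : act σ (k • v) = k • act σ v := by
  obtain ⟨x, rfl⟩ := M.e.surjective v
  rw [← FlatModel.e_pow M x k, ← FlatModel.e_galAct M σ (x ^ k), ← FlatModel.e_galAct M σ x, map_pow,
    FlatModel.e_pow]

include hp hP hID in
/-- **RIG-unr for `p`-power torsion.** -/
theorem eq_zero_of_mem_V0_of_fixed_pow (hp2 : p ≠ 2) (n : ℕ) {v : V} (hv : v ∈ M.V0 P hRP)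
    (hpv : p ^ n • v = 0)
    (hfix : ∀ σ : D, (σ : GQ) ∈ P.inertiaSubgroupIn ℚ → act σ v = v) : v = 0 := by
  induction n with
  | zero => simpa using hpv
  | succ n ih =>
    refine ih ?_
    refine FlatModel.eq_zero_of_mem_V0_of_fixed M P hRP hp hP hID hp2
      ((M.V0 P hRP).nsmul_mem hv _) ?_ (fun σ hσ => ?_)
    · rw [← mul_smul, ← pow_succ']
      exact hpv
    · rw [act_nsmul M σ, hfix σ hσ]

end Model

variable (P : ValuationSubring Qb)

/-- **Flat ⟹ rigid**, over any finite local ring in which `p` is nilpotent. -/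
theorem isRigid_of_isFlatAt_general {A : Type} [CommRing A] [IsLocalRing A] [Finite A] {p : ℕ}
    (hp : p.Prime) (hp2 : p ≠ 2) (hpA : ∃ n : ℕ, ((p : A)) ^ n = 0) (ρ : GaloisRepAdic A)
    (hflat : ρ.IsFlatAt p) (hP : P.LiesOverPrime p) :
    OrdLine.IsRigid ρ.ρ (P.decompositionSubgroup ℚ) (P.inertiaSubgroupIn ℚ) := by
  intro W K hKW hW hK y hy hfix hmem
  obtain ⟨n, hn⟩ := hpA
  -- the subquotient `X = W / K`
  set Wa : AddSubgroup ρ.V := W.toAddSubgroup with hWa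
  set Ka : AddSubgroup ρ.V := K.toAddSubgroup with hKa
  let actW : P.decompositionSubgroup ℚ → (Wa →+ Wa) := fun σ =>
    AddMonoidHom.mk' (fun w => ⟨ρ.ρ (σ : GQ) w.1, hW σ.1 σ.2 w.1 w.2⟩)
      (fun a b => Subtype.ext (by simp [map_add]))
  let actQ : P.decompositionSubgroup ℚ → (↥Wa ⧸ Ka.addSubgroupOf Wa) → (↥Wa ⧸ Ka.addSubgroupOf Wa) :=
    fun σ => QuotientAddGroup.map (Ka.addSubgroupOf Wa) (Ka.addSubgroupOf Wa) (actW σ)
      (fun w hw => by
        show ρ.ρ (σ : GQ) w.1 ∈ K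
        exact hK σ.1 σ.2 w.1 hw)
  have hQ : ∀ (σ : P.decompositionSubgroup ℚ) (w : Wa), actQ σ (QuotientAddGroup.mk w) =
      QuotientAddGroup.mk (⟨ρ.ρ (σ : GQ) w.1, hW σ.1 σ.2 w.1 w.2⟩ : Wa) := fun σ w => rfl
  obtain ⟨M⟩ := nonempty_flatModel P
    (isFlatRealizable_decomp_subquotient P hp hP ρ hflat Wa Ka hW hK actQ hQ)
  -- the subgroup of elements of `W` whose class is in the connected part
  let T : AddSubgroup ρ.V :=
    ((M.V0 P (decompRing_mem P)).comap (QuotientAddGroup.mk' (Ka.addSubgroupOf Wa))).map Wa.subtype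
  have hT : ∀ z (hz : z ∈ W), z ∈ T ↔
      (QuotientAddGroup.mk (⟨z, hz⟩ : Wa) : ↥Wa ⧸ Ka.addSubgroupOf Wa) ∈
        M.V0 P (decompRing_mem P) := by
    intro z hz
    constructor
    · rintro ⟨w, hw, rfl⟩
      exact hw
    · intro h
      exact ⟨⟨z, hz⟩, h, rfl⟩
  have hKT : ∀ z ∈ K, z ∈ T := by
    intro z hz
    have hzW : z ∈ W := hKW hz
    rw [hT z hzW]
    have : (QuotientAddGroup.mk (⟨z, hzW⟩ : Wa) : ↥Wa ⧸ Ka.addSubgroupOf Wa) = 0 := by
      rw [QuotientAddGroup.eq_zero_iff]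
      exact hz
    rw [this]
    exact AddSubgroup.zero_mem _
  have hST : ∀ s ∈ ⨆ σ ∈ P.inertiaSubgroupIn ℚ, W.map (ρ.ρ σ - 1), s ∈ T := by
    intro s hs
    refine Submodule.iSup_induction _ (motive := fun s => s ∈ T) hs (fun σ x hx => ?_)
      (AddSubgroup.zero_mem _) (fun _ _ hx hy => AddSubgroup.add_mem _ hx hy)
    refine Submodule.iSup_induction _ (motive := fun s => s ∈ T) hx (fun hσ x hx => ?_)
      (AddSubgroup.zero_mem _) (fun _ _ hx hy => AddSubgroup.add_mem _ hx hy)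
    obtain ⟨w, hw, rfl⟩ := hx
    have hσD : σ ∈ P.decompositionSubgroup ℚ := inertia_le_decomp P hσ
    have hxW : (ρ.ρ σ - 1) w ∈ W := W.sub_mem (hW σ hσD w hw) hw
    rw [hT _ hxW]
    have := M.act_sub_mem_V0 P (decompRing_mem P) (σ := ⟨σ, hσD⟩) hσ
      (QuotientAddGroup.mk (⟨w, hw⟩ : Wa))
    exact this
  have hyT : y ∈ T := by
    obtain ⟨k0, hk0, s, hs, rfl⟩ := Submodule.mem_sup.1 hmem
    exact AddSubgroup.add_mem _ (hKT k0 hk0) (hST s hs)
  rw [hT y hy] at hyT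
  have hzero : (QuotientAddGroup.mk (⟨y, hy⟩ : Wa) : ↥Wa ⧸ Ka.addSubgroupOf Wa) = 0 := by
    refine eq_zero_of_mem_V0_of_fixed_pow M P (decompRing_mem P) hp hP (inertia_le_decomp P) hp2 n
      hyT ?_ (fun σ hσ => ?_)
    · have h0 : p ^ n • (⟨y, hy⟩ : Wa) = 0 := by
        apply Subtype.ext
        rw [AddSubgroup.coe_nsmul]
        show p ^ n • y = 0
        rw [← Nat.cast_smul_eq_nsmul A, Nat.cast_pow, hn, zero_smul]
      rw [← QuotientAddGroup.mk_nsmul, h0]
      rfl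
    · rw [hQ]
      rw [QuotientAddGroup.eq]
      show -(ρ.ρ (σ : GQ) y) + y ∈ K
      have := K.neg_mem (hfix σ.1 hσ)
      rwa [neg_sub, sub_eq_neg_add] at this
  rw [QuotientAddGroup.eq_zero_iff] at hzero
  exact hzero

end Fermat.Agent.FF2.S33
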