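import Mathlib
import Fermat.Agent.FF2.S33.OrdGeneral
import Fermat.Agent.FF2.S33.RigidGeneral

/-!
# S33 design pass, (II-b): FLAT + residual shape ⟹ the body of `IsOrdinaryAt`, any finite local `A`

`A` a finite local ring with `(p : A) ∈ 𝔪` (`p` odd), `ρ : GaloisRepAdic A` flat at `p`, `P | p`,
`E` a `D_P`-stable submodule with `E + 𝔪V ≠ V`, inertia trivial on `V / E` and non-trivial on
`E / 𝔪V`.  Then `L := Σ_{σ ∈ I_P} (σ - 1) V` is a free rank-one direct summand, `D_P`-stable, with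
`I_P` trivial on `V / L` (`exists_ordinary_line_of_isFlatAt_of_shape_general`).

Main's `FlatRigid.exists_ordinary_line_of_isFlatAt_of_shape` is the case `A = k[ε]`.
-/

set_option autoImplicit false
set_option linter.unusedSectionVars false

namespace Fermat.Agent.FF2.S33

open IsLocalRing Fermat.Agent.TW.Hopf Fermat.Agent.TW.Hopf.FlatRigid

local notation "Qb" => AlgebraicClosure ℚ
local notation "GQ" => (AlgebraicClosure ℚ ≃ₐ[ℚ] AlgebraicClosure ℚ)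

/-- the maximal ideal of a finite local ring is nilpotent. -/
theorem exists_maximalIdeal_pow_eq_bot (A : Type*) [CommRing A] [IsLocalRing A] [Finite A] :
    ∃ n : ℕ, maximalIdeal A ^ n = ⊥ := by
  have h1 : IsNilpotent (Ideal.jacobson (⊥ : Ideal A)) := IsArtinianRing.isNilpotent_jacobson_bot
  rw [IsLocalRing.jacobson_eq_maximalIdeal ⊥ bot_ne_top] at h1
  obtain ⟨n, hn⟩ := h1
  exact ⟨n, hn⟩

theorem exists_natCast_pow_eq_zero {A : Type*} [CommRing A] [IsLocalRing A] [Finite A] {p : ℕ}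
    (hpA : (p : A) ∈ maximalIdeal A) : ∃ n : ℕ, ((p : A)) ^ n = 0 := by
  obtain ⟨n, hn⟩ := exists_maximalIdeal_pow_eq_bot A
  refine ⟨n, ?_⟩
  have : ((p : A)) ^ n ∈ maximalIdeal A ^ n := Ideal.pow_mem_pow hpA n
  rwa [hn, Ideal.mem_bot] at this

variable (P : ValuationSubring Qb)

theorem inertia_conj_mem : ∀ τ ∈ P.decompositionSubgroup ℚ, ∀ σ ∈ P.inertiaSubgroupIn ℚ,
    τ * σ * τ⁻¹ ∈ P.inertiaSubgroupIn ℚ := by
  rintro τ hτ _ ⟨i', hi', rfl⟩
  haveI : (P.inertiaSubgroup ℚ).Normal := by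
    unfold ValuationSubring.inertiaSubgroup
    infer_instance
  exact ⟨(⟨τ, hτ⟩ : P.decompositionSubgroup ℚ) * i' * (⟨τ, hτ⟩ : P.decompositionSubgroup ℚ)⁻¹,
    Subgroup.Normal.conj_mem inferInstance i' hi' _, rfl⟩

/-- **FLAT + residual shape ⟹ ordinary line**, over any finite local ring. -/
theorem exists_ordinary_line_of_isFlatAt_of_shape_general {A : Type} [CommRing A] [IsLocalRing A]
    [Finite A] {p : ℕ} (hp : p.Prime) (hp2 : p ≠ 2) (hpA : (p : A) ∈ maximalIdeal A)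
    (ρ : GaloisRepAdic A) (hflat : ρ.IsFlatAt p) (hP : P.LiesOverPrime p)
    (E : Submodule A ρ.V) (hE2 : E ⊔ maximalIdeal A • (⊤ : Submodule A ρ.V) ≠ ⊤)
    (hED : ∀ σ ∈ P.decompositionSubgroup ℚ, ∀ v ∈ E, ρ.ρ σ v ∈ E)
    (hquot : ∀ σ ∈ P.inertiaSubgroupIn ℚ, ∀ v, ρ.ρ σ v - v ∈ E)
    (hsub : ∃ σ ∈ P.inertiaSubgroupIn ℚ, ∃ v ∈ E, ρ.ρ σ v - v ∉
      maximalIdeal A • (⊤ : Submodule A ρ.V)) :
    ∃ L : Submodule A ρ.V,
      (∃ b : Module.Basis (Fin 2) A ρ.V, L = Submodule.span A {b 0}) ∧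
      (∀ σ ∈ P.decompositionSubgroup ℚ, ∀ v ∈ L, ρ.ρ σ v ∈ L) ∧
      (∀ σ ∈ P.inertiaSubgroupIn ℚ, ∀ v, ρ.ρ σ v - v ∈ L) :=
  exists_ordinary_line_of_isRigid_general (exists_maximalIdeal_pow_eq_bot A)
    (Module.finBasisOfFinrankEq A ρ.V ρ.finrank_eq) (inertia_conj_mem P) (inertia_le_decomp P)
    E hE2 hED hquot hsub
    (isRigid_of_isFlatAt_general P hp hp2 (exists_natCast_pow_eq_zero hpA) ρ hflat hP)

end Fermat.Agent.FF2.S33
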